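/-
S45 wiring (helper2), part 2: **the Frobenius traces `a_ℓ` do not depend on the integral model**.

If `W`, `W₀` are two integral Weierstrass models whose generic fibres differ by a change of
variables over `ℚ`, then `a_ℓ(W) = a_ℓ(W₀)` at every prime `ℓ` of good reduction for both: the two
`lam ^ m`-torsion modules are Galois-equivariantly isomorphic, and on both a Frobenius element at
`ℓ` has trace `a_ℓ` (`s58_et`).
-/
import Fermat.Agent.Lib.S58.ET
import Fermat.Agent.Lib.S13.Glue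
import Fermat.Agent.Lib.Helper6.FrobeniusExists

set_option autoImplicit false
set_option linter.unusedSectionVars false
set_option linter.style.haveILetI false

open Polynomial WeierstrassCurve WeierstrassCurve.Affine WeierstrassCurve.Affine.Point
open Fermat.Agent.S58 Fermat.Agent.S13Lib

namespace Fermat.Agent.S45

local notation "Qb" => AlgebraicClosure ℚ
local notation "GQ" => (AlgebraicClosure ℚ ≃ₐ[ℚ] AlgebraicClosure ℚ)

/-- the Galois-equivariant linear isomorphism between the `n`-torsion modules of two integral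
models of the same curve -/
theorem s45_exists_equiv {W W₀ : WeierstrassCurve ℤ} (C : VariableChange ℚ)
    (hC : s58E W = C • s58E W₀) (n : ℕ) :
    ∃ e : S58Tors W₀ n ≃ₗ[ZMod n] S58Tors W n,
      ∀ (σ : GQ) (x : S58Tors W₀ n), e (σ • x) = σ • e x := by
  obtain ⟨φ, hφ⟩ := exists_equivariant_equiv_of_eq (s58E W₀) (s58E W) C hC
  have h1 : ∀ x : ((s58E W₀).toAffine⁄Qb).Point,
      x ∈ Submodule.torsionBy ℤ ((s58E W₀).toAffine⁄Qb).Point (n : ℤ) →
      φ x ∈ Submodule.torsionBy ℤ ((s58E W).toAffine⁄Qb).Point (n : ℤ) := by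
    intro x hx
    rw [Submodule.mem_torsionBy_iff] at hx ⊢
    rw [← map_zsmul, hx, _root_.map_zero]
  have h2 : ∀ y : ((s58E W).toAffine⁄Qb).Point,
      y ∈ Submodule.torsionBy ℤ ((s58E W).toAffine⁄Qb).Point (n : ℤ) →
      φ.symm y ∈ Submodule.torsionBy ℤ ((s58E W₀).toAffine⁄Qb).Point (n : ℤ) := by
    intro x hx
    rw [Submodule.mem_torsionBy_iff] at hx ⊢
    rw [← map_zsmul, hx, _root_.map_zero]
  let ψ : S58Tors W₀ n ≃+ S58Tors W n :=
    { toFun := fun x => ⟨φ x, h1 x x.2⟩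
      invFun := fun y => ⟨φ.symm y, h2 y y.2⟩
      left_inv := fun x => Subtype.ext (φ.symm_apply_apply x)
      right_inv := fun y => Subtype.ext (φ.apply_symm_apply y)
      map_add' := fun x y => Subtype.ext (map_add φ (x : ((s58E W₀).toAffine⁄Qb).Point)
        (y : ((s58E W₀).toAffine⁄Qb).Point)) }
  refine ⟨LinearEquiv.ofBijective (ψ.toAddMonoidHom.toZModLinearMap n) ψ.bijective, ?_⟩
  intro σ x
  apply Subtype.ext
  exact hφ σ (x : ((s58E W₀).toAffine⁄Qb).Point)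

/-- an integer divisible by every power of a prime is zero -/
theorem s45_eq_zero_of_pow_dvd {lam : ℕ} (hlam : lam.Prime) (d : ℤ)
    (h : ∀ m : ℕ, ((lam ^ m : ℕ) : ℤ) ∣ d) : d = 0 := by
  by_contra hd
  have h1 := h d.natAbs
  have h2 : (lam ^ d.natAbs : ℕ) ∣ d.natAbs := Int.natCast_dvd.1 h1
  have h3 : lam ^ d.natAbs ≤ d.natAbs :=
    Nat.le_of_dvd (Int.natAbs_pos.2 hd) h2
  have h4 : d.natAbs < lam ^ d.natAbs := Nat.lt_pow_self hlam.one_lt
  omega

/-- **model independence of `a_ℓ`** -/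
theorem s45_ap_eq {W W₀ : WeierstrassCurve ℤ} (hΔ : W.Δ ≠ 0) (hΔ₀ : W₀.Δ ≠ 0)
    (C : VariableChange ℚ) (hC : s58E W = C • s58E W₀)
    {ℓ : ℕ} (hℓ : ℓ.Prime) (hg : ¬ (ℓ : ℤ) ∣ W.Δ) (hg₀ : ¬ (ℓ : ℤ) ∣ W₀.Δ) :
    W.apOfModel ℓ = W₀.apOfModel ℓ := by
  obtain ⟨lam, hlam, hne⟩ : ∃ lam : ℕ, lam.Prime ∧ lam ≠ ℓ := by
    by_cases h : ℓ = 2
    · exact ⟨3, Nat.prime_three, by omega⟩
    · exact ⟨2, Nat.prime_two, fun h2 => h h2.symm⟩
  obtain ⟨A, σ, hA, hσ⟩ := Fermat.Agent.Lib.Helper6.exists_frobenius ℓ hℓ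
  have hsub : W.apOfModel ℓ - W₀.apOfModel ℓ = 0 := by
    apply s45_eq_zero_of_pow_dvd hlam
    intro m
    obtain ⟨e, he⟩ := s45_exists_equiv C hC (lam ^ m)
    obtain ⟨htr, -⟩ := s58_et W hΔ ℓ lam m (lam ^ m) hℓ hg hlam hne rfl A hA σ hσ
    obtain ⟨htr₀, -⟩ := s58_et W₀ hΔ₀ ℓ lam m (lam ^ m) hℓ hg₀ hlam hne rfl A hA σ hσ
    have hconj : s58Gal W (lam ^ m) σ = e.conj (s58Gal W₀ (lam ^ m) σ) := by
      apply LinearMap.ext
      intro y
      rw [LinearEquiv.conj_apply_apply]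
      have := he σ (e.symm y)
      rw [LinearEquiv.apply_symm_apply] at this
      exact this.symm
    have h1 : ((W.apOfModel ℓ : ℤ) : ZMod (lam ^ m)) = ((W₀.apOfModel ℓ : ℤ) : ZMod (lam ^ m)) := by
      rw [← htr, ← htr₀, hconj, LinearMap.trace_conj']
    rw [← ZMod.intCast_zmod_eq_zero_iff_dvd, Int.cast_sub, h1, sub_self]
  exact sub_eq_zero.1 hsub

end Fermat.Agent.S45
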