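/-
S45 wiring (helper2), part 3: **the level of the newform is squarefree** (relative to `S36Gen`).

* `s45_not_sq_dvd` : for a semistable integral model `W`, a newform `g` of level `M ∣ N` with
  `a_ℓ(g) = a_ℓ(W)` for `ℓ ∤ N`, and an odd prime `lam ≠ r` with `W[lam]` irreducible: `r ^ 2 ∤ M`
  (`S36Gen` + unipotence of inertia at `r` on the `lam`-adic Tate module of a semistable curve;
  this is `s58a_not_sq_dvd` with `S36Gen` in place of S36, hence with no condition on the exponent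
  of `r` and no condition at `lam`);
* `s45_frey_irr` : the **two-prime trick** — for the Frey curve, every prime `r` admits such a
  `lam`: `lam = p` if `r ≠ p` (the hypothesis of S45) and `lam ∈ {3, 5}` if `r = p` (S51; `p = 5`
  is impossible by Fermat's Last Theorem for the exponent 5);
* `s45_squarefree` : the level `M` is squarefree.
-/
import Fermat.Agent.Lib.S45.Defs
import Fermat.Agent.Lib.S58.Assembly
import Fermat.Agent.Lib.Mazur2.Frey.Model
import Fermat.Agent.Lib.FLTReg.Wiring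
import Fermat.Agent.S51

set_option autoImplicit false
set_option linter.style.haveILetI false
set_option linter.unusedSectionVars false
set_option linter.unusedVariables false

namespace Fermat.Agent.S45

open WeierstrassCurve Polynomial IsLocalRing CuspForm ModularFormClass CongruenceSubgroup
open Fermat.Agent.T1 Fermat.Agent.S58

local notation "Qb" => AlgebraicClosure ℚ
local notation "GQ" => (AlgebraicClosure ℚ ≃ₐ[ℚ] AlgebraicClosure ℚ)

/-- **no square divides `M`**: `r ^ 2 ∤ M` as soon as there is an odd prime `lam ≠ r` with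
`W[lam]` irreducible -/
theorem s45_not_sq_dvd (hS36 : S36Gen) (W : WeierstrassCurve ℤ) {N M : ℕ} [NeZero M]
    {g : CuspForm (Gamma0 M) 2} (hΔ : W.Δ ≠ 0) (het : S58ET W) (hss : W.IsSemistableModel)
    (hg : g.IsNewform) (hMN : M ∣ N) (hN0 : N ≠ 0)
    (hgW : ∀ ℓ : ℕ, ℓ.Prime → ¬ ℓ ∣ N → qCoeff g ℓ = (W.apOfModel ℓ : ℂ))
    {lam : ℕ} [Fact lam.Prime] (hlam2 : lam ≠ 2) (hirr : W.ModRepIsIrreducible lam)
    {r : ℕ} (hr : r.Prime) (hrlam : r ≠ lam) : ¬ r ^ 2 ∣ M := by
  intro hrM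
  have hlam : lam.Prime := Fact.out
  have hM0 : M ≠ 0 := NeZero.ne M
  have hfact : 2 ≤ M.factorization r := (hr.pow_dvd_iff_le_factorization hM0).1 hrM
  set S : Finset ℕ := insert lam N.primeFactors with hS
  have hlamS : lam ∈ S := Finset.mem_insert_self _ _
  have hMS : ∀ q : ℕ, q.Prime → q ∣ M → q ∈ S := fun q hq hqM =>
    Finset.mem_insert_of_mem (Nat.mem_primeFactors.2 ⟨hq, dvd_trans hqM hMN, hN0⟩)
  obtain ⟨O', i1, i2, i3, i4, i5, i6, hlamO', ⟨iota⟩⟩ := s58a_exists_coeff hg lam S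
  have hchig : ∀ (ℓ : ℕ) (hℓ : ℓ.Prime) (hℓM : ¬ ℓ ∣ M) (hℓS : ℓ ∉ (↑S : Set ℕ)),
      terEigenCharC hg.1 (↑S : Set ℕ) (heckeAlgebra.T hℓ hℓM hℓS) = qCoeff g ℓ :=
    fun ℓ hℓ hℓM hℓS => terEigenCharC_T hg.1 (↑S : Set ℕ) hℓ hℓM hℓS
  obtain ⟨O'', j1, j2, j3, j4, j5, j6, j7, j8, j9, hinj, ρ, hρ, hnon⟩ :=
    hS36 hg lam S O' hlamO' hlam2 (terEigenCharC hg.1 (↑S : Set ℕ)) hchig iota hlamS hMS
      (by
        intro O'' k1 k2 k3 k4 k5 k6 k7 k8 k9 _ ρ' hρ'
        have hlamO'' : (lam : O'') ∈ maximalIdeal O'' :=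
          s58a_mem_maximalIdeal_of_isLocalHom hlamO'
        have hm' : S58Match W lam ρ' :=
          s58a_match_of_charpoly W hΔ het hg hMN hN0 hgW hlam S iota ρ'
            (fun ℓ hℓ hℓM hℓS => hρ' ℓ hℓ (fun h => hℓS (h ▸ Finset.mem_coe.2 hlamS)) hℓM hℓS)
        exact s58r_hres W hΔ het hlam2 hirr hlamO'' ρ' hm')
  have hlamO'' : (lam : O'') ∈ maximalIdeal O'' := s58a_mem_maximalIdeal_of_isLocalHom hlamO'
  have hm : S58Match W lam ρ := s58a_match_of_charpoly W hΔ het hg hMN hN0 hgW hlam S iota ρ hρ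
  have hlamodd : Odd lam := hlam.odd_of_ne_two hlam2
  have huni : ρ.IsUnipotentOnInertiaAt r :=
    s58a_unipotent W hΔ het hlam hlamO'' ρ hm hr hrlam (fun m P hP =>
      s58l_fixed W hΔ hr (hss r hr) hlamodd.pow
        (fun h => hrlam ((Nat.prime_dvd_prime_iff_eq hr hlam).1 (hr.dvd_of_dvd_pow h))) P hP)
  exact hnon r hr hrlam hfact huni

/-- the integral Frey curve is a semistable model -/
theorem s45_frey_semistable (P : FreyPackage) : P.freyCurveInt.IsSemistableModel :=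
  fun ℓ hℓ h => Fermat.Agent.Mazur2.mz2f_semistable P hℓ h

/-- **the two-prime trick**: for every prime `r` there is an odd prime `lam ≠ r` such that the
mod-`lam` representation of the Frey curve is irreducible -/
theorem s45_frey_irr (P : FreyPackage)
    (hirr : WeierstrassCurve.Affine.Point.GaloisRepIsIrreducible (K := AlgebraicClosure ℚ) ℚ
      P.freyCurve P.p) (r : ℕ) :
    ∃ lam : ℕ, lam.Prime ∧ lam ≠ 2 ∧ r ≠ lam ∧ P.freyCurveInt.ModRepIsIrreducible lam := by
  have hp5 := P.hp5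
  by_cases hrp : r = P.p
  · -- `r = p`: use `lam ∈ {3, 5}`
    rcases Fermat.Agent.S51.result P.freyCurveInt (Fermat.Agent.Mazur2.mz2f_Δ_ne_zero P)
      (s45_frey_semistable P) with h3 | h5
    · exact ⟨3, Nat.prime_three, by omega, by omega, h3⟩
    · refine ⟨5, Nat.prime_five, by omega, ?_, h5⟩
      intro h
      have hp : P.p = 5 := by omega
      have hflt : FermatLastTheoremFor P.p := by
        rw [hp]
        exact Fermat.Agent.FLTReg.fermatLastTheoremFor_five
      exact Fermat.Agent.FLTReg.freyPackage_false_of_flt P hflt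
  · -- `r ≠ p`: use `lam = p`
    refine ⟨P.p, P.pp, by omega, hrp, ?_⟩
    unfold WeierstrassCurve.ModRepIsIrreducible
    rw [Fermat.Agent.Mazur2.mz2f_frey_eq]
    exact hirr

/-- **the level of the newform is squarefree** -/
theorem s45_squarefree (hS36 : S36Gen) (P : FreyPackage)
    (hirr : WeierstrassCurve.Affine.Point.GaloisRepIsIrreducible (K := AlgebraicClosure ℚ) ℚ
      P.freyCurve P.p) {N M : ℕ} [NeZero M]
    {g : CuspForm (Gamma0 M) 2} (het : S58ET P.freyCurveInt)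
    (hg : g.IsNewform) (hMN : M ∣ N) (hN0 : N ≠ 0)
    (hgW : ∀ ℓ : ℕ, ℓ.Prime → ¬ ℓ ∣ N → qCoeff g ℓ = (P.freyCurveInt.apOfModel ℓ : ℂ)) :
    Squarefree M := by
  rw [Nat.squarefree_iff_prime_squarefree]
  intro r hr h
  obtain ⟨lam, hlam, hlam2, hrlam, hirr'⟩ := s45_frey_irr P hirr r
  haveI : Fact lam.Prime := ⟨hlam⟩
  exact s45_not_sq_dvd hS36 P.freyCurveInt (Fermat.Agent.Mazur2.mz2f_Δ_ne_zero P) het
    (s45_frey_semistable P) hg hMN hN0 hgW hlam2 hirr' hr hrlam (by rwa [pow_two])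

end Fermat.Agent.S45
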