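/-
S45 wiring (helper2), part 4: **from modularity of the Frey curve to a conductor level**
(relative to `S36Gen`).

`s45_conductor : S36Gen → P.freyCurve.IsModular → (ρ̄_{E,p} irreducible) →
  ∃ M, P.IsConductorLevel M ∧ P.ModularRepOfLevel M`.

The modularity hypothesis gives an integral model `W`, a level `N` and a normalised eigenform `f`
with `a_ℓ(f) = a_ℓ(W)` at the good primes `ℓ ∤ N`.  We pass to the semistable model
`W₀ = P.freyCurveInt` (`s45_ap_eq`: `a_ℓ(W) = a_ℓ(W₀)` at the primes good for both), replace `N` by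
`N' = N · |Δ(W)| · |Δ(W₀)|`, and extract the newform `g` of level `M ∣ N` with the eigenvalues of
`f` away from `N` (`s58n_exists_newform`).  Then `M` is squarefree (`s45_squarefree`, the only use
of `S36Gen`), every prime divisor of `M` divides `a b c` (`s58a_bad_of_dvd`), and
`a_ℓ(g) = a_ℓ(W₀)` at every good `ℓ ∤ M` (`s58a_coeff_eq`).
-/
import Fermat.Agent.Lib.S45.Model
import Fermat.Agent.Lib.S45.Squarefree
import Fermat.Prelude.Def_FreyPackage_IsConductorLevel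

set_option autoImplicit false
set_option linter.style.haveILetI false
set_option linter.unusedSectionVars false
set_option linter.unusedVariables false

namespace Fermat.Agent.S45

open WeierstrassCurve Polynomial IsLocalRing CuspForm ModularFormClass CongruenceSubgroup
open Fermat.Agent.T1 Fermat.Agent.S58

local notation "Qb" => AlgebraicClosure ℚ
local notation "GQ" => (AlgebraicClosure ℚ ≃ₐ[ℚ] AlgebraicClosure ℚ)

/-- an integral model of an elliptic curve over `ℚ` has nonzero discriminant -/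
theorem s45_Δ_ne_zero_of_model {W : WeierstrassCurve ℤ} {E : WeierstrassCurve ℚ} (hE : E.Δ ≠ 0)
    (C : WeierstrassCurve.VariableChange ℚ) (hC : C • E = W.map (Int.castRingHom ℚ)) :
    W.Δ ≠ 0 := by
  intro h0
  have h1 := congrArg WeierstrassCurve.Δ hC
  rw [WeierstrassCurve.variableChange_Δ, WeierstrassCurve.map_Δ, h0, map_zero] at h1
  rcases mul_eq_zero.1 h1 with h | h
  · exact (C.u⁻¹).ne_zero (pow_eq_zero_iff (by norm_num) |>.1 h)
  · exact hE h

/-- the discriminant of the Frey curve over `ℚ` is nonzero -/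
theorem s45_frey_Δ_ne_zero (P : FreyPackage) : P.freyCurve.Δ ≠ 0 := by
  rw [← Fermat.Agent.Mazur2.mz2f_frey_eq, WeierstrassCurve.map_Δ, eq_intCast]
  exact_mod_cast Fermat.Agent.Mazur2.mz2f_Δ_ne_zero P

/-- **modularity of the Frey curve ⇒ a conductor level carrying the mod-`p` representation** -/
theorem s45_conductor (hS36 : S36Gen) (P : FreyPackage) (hmod : P.freyCurve.IsModular)
    (hirr : WeierstrassCurve.Affine.Point.GaloisRepIsIrreducible (K := AlgebraicClosure ℚ) ℚ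
      P.freyCurve P.p) :
    ∃ M : ℕ, P.IsConductorLevel M ∧ P.ModularRepOfLevel M := by
  have hΔ₀ : P.freyCurveInt.Δ ≠ 0 := Fermat.Agent.Mazur2.mz2f_Δ_ne_zero P
  have het₀ : S58ET P.freyCurveInt := s58_et P.freyCurveInt hΔ₀
  obtain ⟨W, ⟨C, hC⟩, N, hNpos, f, hf, hfW⟩ := hmod
  have hE₀ : s58E P.freyCurveInt = P.freyCurve := Fermat.Agent.Mazur2.mz2f_frey_eq P
  have hCW : s58E W = C • s58E P.freyCurveInt := by rw [hE₀]; exact hC.symm
  have hΔ : W.Δ ≠ 0 := s45_Δ_ne_zero_of_model (s45_frey_Δ_ne_zero P) C hC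
  have hN0 : N ≠ 0 := hNpos.ne'
  set N' : ℕ := N * (W.Δ.natAbs * P.freyCurveInt.Δ.natAbs) with hN'
  have hN'0 : N' ≠ 0 :=
    mul_ne_zero hN0 (mul_ne_zero (Int.natAbs_ne_zero.2 hΔ) (Int.natAbs_ne_zero.2 hΔ₀))
  obtain ⟨M, g, hMN, hg, hgf⟩ := s58n_exists_newform hN0 hf
  have hM0 : M ≠ 0 := fun h => hN0 (by rw [h] at hMN; exact zero_dvd_iff.1 hMN)
  haveI : NeZero M := ⟨hM0⟩
  have hMN' : M ∣ N' := hMN.trans (dvd_mul_right _ _)
  have hgW : ∀ ℓ : ℕ, ℓ.Prime → ¬ ℓ ∣ N' →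
      qCoeff g ℓ = (P.freyCurveInt.apOfModel ℓ : ℂ) := by
    intro ℓ hℓ hℓN'
    have hℓN : ¬ ℓ ∣ N := fun h => hℓN' (h.mul_right _)
    have hgood : ¬ (ℓ : ℤ) ∣ W.Δ := fun h =>
      hℓN' (dvd_mul_of_dvd_right (dvd_mul_of_dvd_left (Int.natCast_dvd.1 h) _) _)
    have hgood₀ : ¬ (ℓ : ℤ) ∣ P.freyCurveInt.Δ := fun h =>
      hℓN' (dvd_mul_of_dvd_right (dvd_mul_of_dvd_right (Int.natCast_dvd.1 h) _) _)
    rw [hgf ℓ hℓ hℓN, hfW ℓ hℓ hgood hℓN, s45_ap_eq hΔ hΔ₀ C hCW hℓ hgood hgood₀]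
  have hsq : Squarefree M := s45_squarefree hS36 P hirr het₀ hg hMN' hN'0 hgW
  refine ⟨M, ⟨Nat.pos_of_ne_zero hM0, hsq, ?_⟩, ?_⟩
  · -- the support of `M`
    intro q hq hqM
    have h2 : ¬ q ^ 2 ∣ M := fun h =>
      Nat.squarefree_iff_prime_squarefree.1 hsq q hq (by rwa [← pow_two])
    exact (Fermat.Agent.Mazur2.mz2f_dvd_Δ_iff P hq).1
      (s58a_bad_of_dvd P.freyCurveInt hΔ₀ het₀ hg hMN' hN'0 hgW hq hqM h2)
  · -- the mod-`p` representation is modular of level `M`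
    obtain ⟨𝔪, h𝔪, hp𝔪⟩ := FLTPrelim.exists_maximalIdeal_natCast_prime_mem P.pp
    refine ⟨g, P.freyCurveInt, 𝔪, hg.1, ⟨1, by rw [one_smul, Fermat.Agent.Mazur2.mz2f_frey_eq]⟩,
      h𝔪, hp𝔪, ?_⟩
    intro ℓ hℓ hgood hℓM _
    refine ⟨((P.freyCurveInt.apOfModel ℓ : ℤ) : integralClosure ℤ ℂ), ?_, ?_⟩
    · rw [s58a_coeff_eq P.freyCurveInt hΔ₀ het₀ hg hMN' hN'0 hgW hℓ hgood hℓM]
      simp
    · rw [sub_self]
      exact 𝔪.zero_mem

end Fermat.Agent.S45
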