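-- S45 descent: from ANY conductor level N at which the mod-p Frey representation is modular, strip the
-- prime p (S44) and the odd primes other than p (S43 + S05) one at a time; what is left divides 2, level 1
-- carries no cusp form (S08), so a normalised eigenform of level 2 survives.
import Fermat.Agent.S05
import Fermat.Agent.S08
import Fermat.Agent.S43
import Fermat.Agent.S44

set_option autoImplicit false
open WeierstrassCurve WeierstrassCurve.Affine WeierstrassCurve.Affine.Point
open CuspForm ModularFormClass UpperHalfPlane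
open FreyPackage

namespace Fermat.Agent.S45

/-- A squarefree positive integer none of whose odd primes divide it is `1` or `2`. -/
theorem s45_eq_one_or_two {N : ℕ} (hpos : 0 < N) (hsq : Squarefree N)
    (hodd : ∀ q : ℕ, q.Prime → q ≠ 2 → ¬ q ∣ N) : N = 1 ∨ N = 2 := by
  by_cases h1 : N = 1
  · exact Or.inl h1
  · right
    have h2 : ∀ q : ℕ, q.Prime → q ∣ N → q = 2 := fun q hq hqN => by
      by_contra hne
      exact hodd q hq hne hqN
    -- `N` is a power of two
    obtain ⟨k, hk⟩ : ∃ k : ℕ, N = 2 ^ k := by
      refine ⟨N.primeFactorsList.length, ?_⟩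
      have hall : ∀ q ∈ N.primeFactorsList, q = 2 := fun q hq =>
        h2 q (Nat.prime_of_mem_primeFactorsList hq) (Nat.dvd_of_mem_primeFactorsList hq)
      have := Nat.prod_primeFactorsList hpos.ne'
      rw [List.eq_replicate_of_mem hall, List.prod_replicate] at this
      exact this.symm
    subst hk
    rcases k with _ | _ | k
    · exact absurd rfl h1
    · rfl
    · exfalso
      have : ¬ Squarefree (2 ^ (k + 1 + 1)) := by
        intro h
        have := Nat.squarefree_iff_prime_squarefree.mp h 2 Nat.prime_two
        exact this ⟨2 ^ k, by ring⟩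
      exact this hsq

/-- **Descent to level two.** If the mod-`p` Frey representation is irreducible and modular of some
conductor level `N`, then there is a nonzero weight-two cusp form on `Γ₀(2)`. -/
theorem s45_descent (P : FreyPackage)
    (hirr : GaloisRepIsIrreducible (K := AlgebraicClosure ℚ) ℚ P.freyCurve P.p) :
    ∀ N : ℕ, P.IsConductorLevel N → P.ModularRepOfLevel N →
      ∃ f : CuspForm (CongruenceSubgroup.Gamma0 2) 2, f ≠ 0 := by
  intro N
  induction N using Nat.strong_induction_on with
  | _ N ih =>
    intro hcond hmod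
    by_cases hpN : P.p ∣ N
    · -- remove `p` (S44)
      obtain ⟨M, hMN, hpM, hM⟩ := Fermat.Agent.S44.result P hcond hpN hirr hmod
      have hMpos : 0 < M := Nat.pos_of_dvd_of_pos hMN hcond.pos
      have hlt : M < N := lt_of_le_of_ne (Nat.le_of_dvd hcond.pos hMN)
        (fun h => hpM (h ▸ hpN))
      exact ih M hlt (hcond.of_dvd hMN hMpos) hM
    · by_cases hex : ∃ q : ℕ, q.Prime ∧ q ≠ 2 ∧ q ∣ N
      · -- remove an odd prime `q ≠ p` (S43 + S05)
        obtain ⟨q, hq, hq2, hqN⟩ := hex
        have hqp : q ≠ P.p := fun h => hpN (h ▸ hqN)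
        obtain ⟨M, hMN, hqM, hM⟩ := Fermat.Agent.S43.result P hcond hq hq2 hqp hqN hirr hmod
          (Fermat.Agent.S05.result P hq hq2 hqp)
        have hMpos : 0 < M := Nat.pos_of_dvd_of_pos hMN hcond.pos
        have hlt : M < N := lt_of_le_of_ne (Nat.le_of_dvd hcond.pos hMN)
          (fun h => hqM (h ▸ hqN))
        exact ih M hlt (hcond.of_dvd hMN hMpos) hM
      · -- nothing left to remove: `N ∈ {1, 2}`
        have hodd : ∀ q : ℕ, q.Prime → q ≠ 2 → ¬ q ∣ N := fun q hq hq2 hqN =>
          hex ⟨q, hq, hq2, hqN⟩
        rcases s45_eq_one_or_two hcond.pos hcond.squarefree hodd with rfl | rfl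
        · obtain ⟨f, _, _, hf, _⟩ := hmod
          exact absurd (Fermat.Agent.S08.result f) hf.ne_zero
        · obtain ⟨f, _, _, hf, _⟩ := hmod
          exact ⟨f, hf.ne_zero⟩

end Fermat.Agent.S45
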