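/-
S45 wiring (helper2), part 5: **`s45_of_s36gen : S36Gen → (statement S45)`**.

Modularity of the Frey curve + irreducibility of `ρ̄_{E,p}` give, relative to `S36Gen`, a conductor
level `M` at which `ρ̄_{E,p}` is modular (`s45_conductor`); the descent loop of the lead
(`s45_descent`: S44, S43 + S05, S08) brings it down to a nonzero cusp form on `Γ₀(2)`.
-/
import Fermat.Agent.Lib.S45.Conductor
import Fermat.Agent.Lib.S45.Descent

set_option autoImplicit false

open WeierstrassCurve WeierstrassCurve.Affine WeierstrassCurve.Affine.Point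
open CuspForm ModularFormClass UpperHalfPlane
open FreyPackage

namespace Fermat.Agent.S45

/-- **S45 relative to `S36Gen`** (S36 for every exponent `e ≥ 2`) -/
theorem s45_of_s36gen (hS36 : S36Gen) (P : FreyPackage) (hmod : P.freyCurve.IsModular)
    (hirr : GaloisRepIsIrreducible (K := AlgebraicClosure ℚ) ℚ P.freyCurve P.p) :
    ∃ f : CuspForm (CongruenceSubgroup.Gamma0 2) 2, f ≠ 0 := by
  obtain ⟨M, hcond, hmodM⟩ := s45_conductor hS36 P hmod hirr
  exact s45_descent P hirr M hcond hmodM

end Fermat.Agent.S45
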