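/-
S45 wiring (helper2), part 6: **S45 from (NEW_e)**.

helper3's statement-level reduction `t4e_S36gen : T4eNewAux t4eWU → (S36 for every exponent)`
(`Lib/T4E/Glue/Top.lean`) gives `S36Gen`; `s45_of_s36gen` then gives the statement of S45.  The only
open input is the geometric statement (NEW_e) `T4eNewAux t4eWU` of `Lib/T4E/Defs.lean`.
-/
import Fermat.Agent.Lib.S45.Main
import Fermat.Agent.Lib.T4E.Glue.Top

set_option autoImplicit false

open WeierstrassCurve WeierstrassCurve.Affine WeierstrassCurve.Affine.Point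
open CuspForm ModularFormClass UpperHalfPlane
open FreyPackage

namespace Fermat.Agent.S45

/-- `S36Gen` from (NEW_e) -/
theorem s45_s36gen_of_new (hnew : Fermat.Agent.T4.T4eNewAux Fermat.Agent.T4.t4eWU) : S36Gen := by
  intro M _ g hg lam _ S O' _ _ _ _ _ _ hlamO' _ chig hchig iota hlamS hMS _
  exact Fermat.Agent.T4.t4e_S36gen hnew hg lam S O' hlamO' chig hchig iota hlamS hMS

/-- **S45 from (NEW_e)** -/
theorem s45_of_new (hnew : Fermat.Agent.T4.T4eNewAux Fermat.Agent.T4.t4eWU) (P : FreyPackage)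
    (hmod : P.freyCurve.IsModular)
    (hirr : GaloisRepIsIrreducible (K := AlgebraicClosure ℚ) ℚ P.freyCurve P.p) :
    ∃ f : CuspForm (CongruenceSubgroup.Gamma0 2) 2, f ≠ 0 :=
  s45_of_s36gen (s45_s36gen_of_new hnew) P hmod hirr

end Fermat.Agent.S45
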